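import Mathlib

/-!
# S43/Tr, abstract layer: the trace identity (T)

`k` a commutative ring, `G` a group, `ρ : G →* Module.End k V`, `D : G →* kˣ` (the "determinant").

* `Pr ρ D` : the `k`-span of the pairs `(ρ g, D g • ρ g⁻¹)` in `End V × End V`; `(X, X') ∈ Pr ρ D` means "`X' = X^ι`".
  It is stable under `(X, X') (Y, Y') ↦ (X Y, Y' X')` and under the swap.
* `CCH ρ D` : the central Cayley-Hamilton relation: `ρ g + D g • ρ g⁻¹` commutes with all `ρ h`.
* `Pr.commute` : `X + X'` commutes with `Y`.
* `trace_identity` : with `e = (1 + c)/2`, `e' = (1 - c)/2` (`ρ(c)² = 1`, `D c = -1`), `u = e A e' + e' B e`, `s = u²`: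
     `s e X e + s e' X e' + u e X e u + u e' X e' u = s (X + X')`.
* `s_commute` : `s` commutes with all `Y`.
-/

set_option autoImplicit false
set_option linter.unusedSimpArgs false

namespace Fermat.Agent.S43.Tr

variable {k G V : Type*} [CommRing k] [Group G] [AddCommGroup V] [Module k V]

/-- the span of the pairs `(ρ g, D g • ρ g⁻¹)`. -/
def Pr (ρ : G →* Module.End k V) (D : G →* kˣ) :
    Submodule k (Module.End k V × Module.End k V) :=
  Submodule.span k (Set.range fun g : G => (ρ g, ((D g : kˣ) : k) • ρ g⁻¹))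

/-- central Cayley-Hamilton. -/
def CCH (ρ : G →* Module.End k V) (D : G →* kˣ) : Prop :=
  ∀ g h : G, Commute (ρ g + ((D g : kˣ) : k) • ρ g⁻¹) (ρ h)

variable {ρ : G →* Module.End k V} {D : G →* kˣ}

theorem Pr.of (g : G) : (ρ g, ((D g : kˣ) : k) • ρ g⁻¹) ∈ Pr ρ D :=
  Submodule.subset_span ⟨g, rfl⟩

theorem Pr.one : ((1 : Module.End k V), (1 : Module.End k V)) ∈ Pr ρ D := by
  have h := Pr.of (ρ := ρ) (D := D) 1
  simpa using h

theorem Pr.add {X X' Y Y' : Module.End k V} (hX : (X, X') ∈ Pr ρ D) (hY : (Y, Y') ∈ Pr ρ D) :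
    (X + Y, X' + Y') ∈ Pr ρ D := (Pr ρ D).add_mem hX hY

theorem Pr.sub {X X' Y Y' : Module.End k V} (hX : (X, X') ∈ Pr ρ D) (hY : (Y, Y') ∈ Pr ρ D) :
    (X - Y, X' - Y') ∈ Pr ρ D := (Pr ρ D).sub_mem hX hY

theorem Pr.smul (a : k) {X X' : Module.End k V} (hX : (X, X') ∈ Pr ρ D) :
    (a • X, a • X') ∈ Pr ρ D := (Pr ρ D).smul_mem a hX

theorem Pr.neg {X X' : Module.End k V} (hX : (X, X') ∈ Pr ρ D) :
    (-X, -X') ∈ Pr ρ D := (Pr ρ D).neg_mem hX

theorem Pr.mul {X X' Y Y' : Module.End k V} (hX : (X, X') ∈ Pr ρ D) (hY : (Y, Y') ∈ Pr ρ D) :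
    (X * Y, Y' * X') ∈ Pr ρ D := by
  have key : ∀ z ∈ Pr ρ D, ∀ w ∈ Pr ρ D, (z.1 * w.1, w.2 * z.2) ∈ Pr ρ D := by
    intro z hz
    induction hz using Submodule.span_induction with
    | mem z hz =>
      obtain ⟨g, rfl⟩ := hz
      intro w hw
      induction hw using Submodule.span_induction with
      | mem w hw =>
        obtain ⟨h, rfl⟩ := hw
        have e := Pr.of (ρ := ρ) (D := D) (g * h)
        have e1 : ((D h : kˣ) : k) • ρ h⁻¹ * (((D g : kˣ) : k) • ρ g⁻¹)
            = ((D (g * h) : kˣ) : k) • ρ (g * h)⁻¹ := by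
          rw [smul_mul_assoc, mul_smul_comm, smul_smul, mul_inv_rev, map_mul, map_mul,
            Units.val_mul, mul_comm]
        show (ρ g * ρ h, ((D h : kˣ) : k) • ρ h⁻¹ * (((D g : kˣ) : k) • ρ g⁻¹)) ∈ Pr ρ D
        rw [e1, ← map_mul]
        exact e
      | zero =>
        have h0 := (Pr ρ D).zero_mem
        have e : ((ρ g, ((D g : kˣ) : k) • ρ g⁻¹).1 * (0 : Module.End k V × Module.End k V).1,
            (0 : Module.End k V × Module.End k V).2 * (ρ g, ((D g : kˣ) : k) • ρ g⁻¹).2) = 0 := by
          simp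
        rw [e]
        exact h0
      | add a b _ _ ha hb =>
        have := (Pr ρ D).add_mem ha hb
        simpa [mul_add, add_mul] using this
      | smul r a _ ha =>
        have := (Pr ρ D).smul_mem r ha
        have e : ((ρ g, ((D g : kˣ) : k) • ρ g⁻¹).1 * (r • a).1,
            (r • a).2 * (ρ g, ((D g : kˣ) : k) • ρ g⁻¹).2)
            = r • ((ρ g, ((D g : kˣ) : k) • ρ g⁻¹).1 * a.1,
              a.2 * (ρ g, ((D g : kˣ) : k) • ρ g⁻¹).2) := by
          simp only [Prod.smul_fst, Prod.smul_snd, Prod.smul_mk, mul_smul_comm, smul_mul_assoc,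
            smul_comm r]
        rw [e]
        exact this
    | zero =>
      intro w _
      have h0 := (Pr ρ D).zero_mem
      have e : ((0 : Module.End k V × Module.End k V).1 * w.1,
          w.2 * (0 : Module.End k V × Module.End k V).2) = 0 := by
        simp
      rw [e]
      exact h0
    | add a b _ _ ha hb =>
      intro w hw
      have := (Pr ρ D).add_mem (ha w hw) (hb w hw)
      simpa [mul_add, add_mul] using this
    | smul r a _ ha =>
      intro w hw
      have := (Pr ρ D).smul_mem r (ha w hw)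
      have e : ((r • a).1 * w.1, w.2 * (r • a).2) = r • (a.1 * w.1, w.2 * a.2) := by
        simp only [Prod.smul_fst, Prod.smul_snd, Prod.smul_mk, mul_smul_comm, smul_mul_assoc]
      rw [e]
      exact this
  exact key _ hX _ hY

theorem Pr.swap {X X' : Module.End k V} (hX : (X, X') ∈ Pr ρ D) : (X', X) ∈ Pr ρ D := by
  have key : ∀ z ∈ Pr ρ D, (z.2, z.1) ∈ Pr ρ D := by
    intro z hz
    induction hz using Submodule.span_induction with
    | mem z hz =>
      obtain ⟨g, rfl⟩ := hz
      have e := Pr.smul (ρ := ρ) (D := D) ((D g : kˣ) : k) (Pr.of (ρ := ρ) (D := D) g⁻¹)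
      rw [smul_smul, inv_inv, map_inv D g, Units.mul_inv, one_smul] at e
      exact e
    | zero => exact (Pr ρ D).zero_mem
    | add a b _ _ ha hb => exact (Pr ρ D).add_mem ha hb
    | smul r a _ ha => exact (Pr ρ D).smul_mem r ha
  exact key _ hX

/-- `X + X^ι` is central. -/
theorem Pr.commute (hC : CCH ρ D) {X X' Y Y' : Module.End k V} (hX : (X, X') ∈ Pr ρ D)
    (hY : (Y, Y') ∈ Pr ρ D) : Commute (X + X') Y := by
  have key : ∀ z ∈ Pr ρ D, ∀ w ∈ Pr ρ D, Commute (z.1 + z.2) w.1 := by
    intro z hz
    induction hz using Submodule.span_induction with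
    | mem z hz =>
      obtain ⟨g, rfl⟩ := hz
      intro w hw
      induction hw using Submodule.span_induction with
      | mem w hw =>
        obtain ⟨h, rfl⟩ := hw
        exact hC g h
      | zero => exact Commute.zero_right _
      | add a b _ _ ha hb => exact Commute.add_right ha hb
      | smul r a _ ha => exact Commute.smul_right ha r
    | zero => intro w _; simp
    | add a b _ _ ha hb =>
      intro w hw
      have := Commute.add_left (ha w hw) (hb w hw)
      have e : (a + b).1 + (a + b).2 = a.1 + a.2 + (b.1 + b.2) := by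
        simp only [Prod.fst_add, Prod.snd_add]; abel
      rw [e]
      exact this
    | smul r a _ ha =>
      intro w hw
      have := Commute.smul_left (ha w hw) r
      have e : (r • a).1 + (r • a).2 = r • (a.1 + a.2) := by
        simp only [Prod.smul_fst, Prod.smul_snd, smul_add]
      rw [e]
      exact this
  exact key _ hX _ hY

/-- an endomorphism commuting with all `ρ g` commutes with the first components of `Pr`. -/
theorem Pr.commute_of_forall {β : Module.End k V} (hβ : ∀ g : G, Commute β (ρ g))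
    {X X' : Module.End k V} (hX : (X, X') ∈ Pr ρ D) : Commute β X := by
  have key : ∀ z ∈ Pr ρ D, Commute β z.1 := by
    intro z hz
    induction hz using Submodule.span_induction with
    | mem z hz =>
      obtain ⟨g, rfl⟩ := hz
      exact hβ g
    | zero => exact Commute.zero_right _
    | add a b _ _ ha hb => exact Commute.add_right ha hb
    | smul r a _ ha => exact Commute.smul_right ha r
  exact key _ hX

/-- the formal identity behind (T). -/
theorem ring_identity {R : Type*} [Ring R] (e f A B X X' : R) (hee : e * e = e) (hff : f * f = f)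
    (hef : e * f = 0) (hfe : f * e = 0)
    (h2 : e * X * e * A * f = e * A * f * X' * f) (h2' : f * X * f * B * e = f * B * e * X' * e)
    (hτe : Commute (X + X') e) (hτf : Commute (X + X') f) :
    (e * A * f + f * B * e) * (e * A * f + f * B * e) * e * X * e
      + (e * A * f + f * B * e) * (e * A * f + f * B * e) * f * X * f
      + (e * A * f + f * B * e) * e * X * e * (e * A * f + f * B * e)
      + (e * A * f + f * B * e) * f * X * f * (e * A * f + f * B * e)
      = (e * A * f + f * B * e) * (e * A * f + f * B * e) * (X + X') := by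
  have hee' : ∀ x, e * (e * x) = e * x := fun x => by rw [← mul_assoc, hee]
  have hff' : ∀ x, f * (f * x) = f * x := fun x => by rw [← mul_assoc, hff]
  have hef' : ∀ x, e * (f * x) = 0 := fun x => by rw [← mul_assoc, hef, zero_mul]
  have hfe' : ∀ x, f * (e * x) = 0 := fun x => by rw [← mul_assoc, hfe, zero_mul]
  have hs : (e * A * f + f * B * e) * (e * A * f + f * B * e)
      = e * A * f * B * e + f * B * e * A * f := by
    simp only [mul_add, add_mul, mul_assoc, hee', hff', hef', hfe', mul_zero, zero_add, add_zero]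
    abel
  have h3 : (e * A * f + f * B * e) * e * X * e * (e * A * f + f * B * e)
      = f * B * (e * X * e * A * f) := by
    simp only [mul_add, add_mul, mul_assoc, hee', hff', hef', hfe', hee, hff, hef, hfe, mul_zero,
      zero_add, add_zero]
  have h4 : (e * A * f + f * B * e) * f * X * f * (e * A * f + f * B * e)
      = e * A * (f * X * f * B * e) := by
    simp only [mul_add, add_mul, mul_assoc, hee', hff', hef', hfe', hee, hff, hef, hfe, mul_zero,
      zero_add, add_zero]
  have h5 : e * A * f * B * e * (X + X') = e * A * f * B * e * X * e + e * A * f * B * e * X' * e := by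
    have : e * (X + X') = e * (X + X') * e := by
      rw [mul_assoc, hτe.eq, ← mul_assoc, hee]
    calc e * A * f * B * e * (X + X') = e * A * f * B * (e * (X + X')) := by
          simp only [mul_assoc]
      _ = e * A * f * B * (e * (X + X') * e) := by rw [← this]
      _ = _ := by simp only [mul_add, add_mul, mul_assoc]
  have h6 : f * B * e * A * f * (X + X') = f * B * e * A * f * X * f + f * B * e * A * f * X' * f := by
    have : f * (X + X') = f * (X + X') * f := by
      rw [mul_assoc, hτf.eq, ← mul_assoc, hff]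
    calc f * B * e * A * f * (X + X') = f * B * e * A * (f * (X + X')) := by
          simp only [mul_assoc]
      _ = f * B * e * A * (f * (X + X') * f) := by rw [← this]
      _ = _ := by simp only [mul_add, add_mul, mul_assoc]
  rw [h3, h4, h2, h2', hs, add_mul _ _ (X + X'), h5, h6]
  simp only [mul_add, add_mul, mul_assoc, hee', hff', hef', hfe', hee, hff, hef, hfe, mul_zero,
      zero_add, add_zero]
  abel

/-- `e = (1 + c)/2`. -/
def eP (ρ : G →* Module.End k V) (half : k) (c : G) : Module.End k V := half • (1 + ρ c)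

/-- `e' = (1 - c)/2`. -/
def eM (ρ : G →* Module.End k V) (half : k) (c : G) : Module.End k V := half • (1 - ρ c)

section Idem

variable {half : k} (hhalf : 2 * half = 1) {c : G} (hc : ρ c * ρ c = 1)

include hc in
theorem rho_c_inv : ρ c⁻¹ = ρ c := by
  have h1 : ρ c⁻¹ * ρ c = 1 := by rw [← map_mul, inv_mul_cancel, map_one]
  calc ρ c⁻¹ = ρ c⁻¹ * (ρ c * ρ c) := by rw [hc, mul_one]
    _ = ρ c := by rw [← mul_assoc, h1, one_mul]

include hc in
theorem eP_eM_mem (hDc : ((D c : kˣ) : k) = -1) : (eP ρ half c, eM ρ half c) ∈ Pr ρ D := by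
  have h1 := Pr.of (ρ := ρ) (D := D) c
  rw [hDc, rho_c_inv hc, neg_smul, one_smul] at h1
  have h2 := Pr.smul half (Pr.add Pr.one h1)
  rw [← sub_eq_add_neg] at h2
  exact h2

include hhalf hc in
theorem eP_mul_eP : eP ρ half c * eP ρ half c = eP ρ half c := by
  unfold eP
  rw [smul_mul_assoc, mul_smul_comm, smul_smul]
  have e : (1 + ρ c) * (1 + ρ c) = (2 : k) • (1 + ρ c) := by
    rw [add_mul, mul_add, mul_add, hc, one_mul, one_mul, mul_one, two_smul]
    abel
  rw [e, smul_smul]
  congr 1
  calc half * half * 2 = half * (2 * half) := by ring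
    _ = half := by rw [hhalf, mul_one]

include hhalf hc in
theorem eM_mul_eM : eM ρ half c * eM ρ half c = eM ρ half c := by
  unfold eM
  rw [smul_mul_assoc, mul_smul_comm, smul_smul]
  have e : (1 - ρ c) * (1 - ρ c) = (2 : k) • (1 - ρ c) := by
    rw [sub_mul, mul_sub, mul_sub, hc, one_mul, one_mul, mul_one, two_smul]
    abel
  rw [e, smul_smul]
  congr 1
  calc half * half * 2 = half * (2 * half) := by ring
    _ = half := by rw [hhalf, mul_one]

include hc in
theorem eP_mul_eM : eP ρ half c * eM ρ half c = 0 := by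
  unfold eP eM
  rw [smul_mul_assoc, mul_smul_comm]
  have e : (1 + ρ c) * (1 - ρ c) = 0 := by
    rw [add_mul, mul_sub, mul_sub, hc, one_mul, mul_one, one_mul]
    abel
  rw [e, smul_zero, smul_zero]

include hc in
theorem eM_mul_eP : eM ρ half c * eP ρ half c = 0 := by
  unfold eP eM
  rw [smul_mul_assoc, mul_smul_comm]
  have e : (1 - ρ c) * (1 + ρ c) = 0 := by
    rw [sub_mul, mul_add, mul_add, hc, one_mul, mul_one, one_mul]
    abel
  rw [e, smul_zero, smul_zero]

include hhalf in
theorem eP_add_eM : eP ρ half c + eM ρ half c = 1 := by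
  unfold eP eM
  rw [← smul_add]
  have e : (1 + ρ c) + (1 - ρ c) = (2 : k) • (1 : Module.End k V) := by
    rw [two_smul]; abel
  rw [e, smul_smul, mul_comm, hhalf, one_smul]

end Idem

section Main

variable {half : k} {c : G}

/-- `e W e' + e W^ι e' = 0`. -/
theorem eP_mul_eM_zero (hC : CCH ρ D) (hc : ρ c * ρ c = 1) (hDc : ((D c : kˣ) : k) = -1)
    {W W' : Module.End k V} (hW : (W, W') ∈ Pr ρ D) :
    eP ρ half c * W * eM ρ half c + eP ρ half c * W' * eM ρ half c = 0 := by
  have h1 : Commute (W + W') (eP ρ half c) := Pr.commute hC hW (eP_eM_mem hc hDc)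
  calc eP ρ half c * W * eM ρ half c + eP ρ half c * W' * eM ρ half c
      = eP ρ half c * (W + W') * eM ρ half c := by rw [mul_add, add_mul]
    _ = (W + W') * (eP ρ half c * eM ρ half c) := by rw [← h1.eq, mul_assoc]
    _ = 0 := by rw [eP_mul_eM hc, mul_zero]

/-- `e' W e + e' W^ι e = 0`. -/
theorem eM_mul_eP_zero (hC : CCH ρ D) (hc : ρ c * ρ c = 1) (hDc : ((D c : kˣ) : k) = -1)
    {W W' : Module.End k V} (hW : (W, W') ∈ Pr ρ D) :
    eM ρ half c * W * eP ρ half c + eM ρ half c * W' * eP ρ half c = 0 := by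
  have h1 : Commute (W + W') (eM ρ half c) := Pr.commute hC hW (Pr.swap (eP_eM_mem hc hDc))
  calc eM ρ half c * W * eP ρ half c + eM ρ half c * W' * eP ρ half c
      = eM ρ half c * (W + W') * eP ρ half c := by rw [mul_add, add_mul]
    _ = (W + W') * (eM ρ half c * eP ρ half c) := by rw [← h1.eq, mul_assoc]
    _ = 0 := by rw [eM_mul_eP hc, mul_zero]

theorem key_PM (hC : CCH ρ D) (hc : ρ c * ρ c = 1) (hDc : ((D c : kˣ) : k) = -1)
    {X X' A A' : Module.End k V} (hX : (X, X') ∈ Pr ρ D) (hA : (A, A') ∈ Pr ρ D) :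
    eP ρ half c * X * eP ρ half c * A * eM ρ half c
      = eP ρ half c * A * eM ρ half c * X' * eM ρ half c := by
  have he := eP_eM_mem (ρ := ρ) (D := D) (half := half) hc hDc
  have h1 := eP_mul_eM_zero (half := half) hC hc hDc (Pr.mul (Pr.mul hX he) hA)
  have h2 := eP_mul_eM_zero (half := half) hC hc hDc hA
  have h3 := congrArg (fun z => z * X' * eM ρ half c) h2
  simp only [add_mul, zero_mul] at h3
  have h4 : eP ρ half c * (X * eP ρ half c * A) * eM ρ half c
      = eP ρ half c * X * eP ρ half c * A * eM ρ half c := by simp only [mul_assoc]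
  have h5 : eP ρ half c * (A' * (eM ρ half c * X')) * eM ρ half c
      = eP ρ half c * A' * eM ρ half c * X' * eM ρ half c := by simp only [mul_assoc]
  rw [h4, h5] at h1
  have h6 := h1.trans h3.symm
  exact add_right_cancel h6

theorem key_MP (hC : CCH ρ D) (hc : ρ c * ρ c = 1) (hDc : ((D c : kˣ) : k) = -1)
    {X X' B B' : Module.End k V} (hX : (X, X') ∈ Pr ρ D) (hB : (B, B') ∈ Pr ρ D) :
    eM ρ half c * X * eM ρ half c * B * eP ρ half c
      = eM ρ half c * B * eP ρ half c * X' * eP ρ half c := by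
  have he := Pr.swap (eP_eM_mem (ρ := ρ) (D := D) (half := half) hc hDc)
  have h1 := eM_mul_eP_zero (half := half) hC hc hDc (Pr.mul (Pr.mul hX he) hB)
  have h2 := eM_mul_eP_zero (half := half) hC hc hDc hB
  have h3 := congrArg (fun z => z * X' * eP ρ half c) h2
  simp only [add_mul, zero_mul] at h3
  have h4 : eM ρ half c * (X * eM ρ half c * B) * eP ρ half c
      = eM ρ half c * X * eM ρ half c * B * eP ρ half c := by simp only [mul_assoc]
  have h5 : eM ρ half c * (B' * (eP ρ half c * X')) * eP ρ half c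
      = eM ρ half c * B' * eP ρ half c * X' * eP ρ half c := by simp only [mul_assoc]
  rw [h4, h5] at h1
  have h6 := h1.trans h3.symm
  exact add_right_cancel h6

/-- `u = e A e' + e' B e`. -/
def uu (ρ : G →* Module.End k V) (half : k) (c : G) (A B : Module.End k V) : Module.End k V :=
  eP ρ half c * A * eM ρ half c + eM ρ half c * B * eP ρ half c

/-- `u^ι = -u`. -/
theorem uu_mem (hC : CCH ρ D) (hc : ρ c * ρ c = 1) (hDc : ((D c : kˣ) : k) = -1)
    {A A' B B' : Module.End k V} (hA : (A, A') ∈ Pr ρ D) (hB : (B, B') ∈ Pr ρ D) :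
    (uu ρ half c A B, - uu ρ half c A B) ∈ Pr ρ D := by
  have he := eP_eM_mem (ρ := ρ) (D := D) (half := half) hc hDc
  have h1 := Pr.add (Pr.mul (Pr.mul he hA) (Pr.swap he)) (Pr.mul (Pr.mul (Pr.swap he) hB) he)
  have h2 := eP_mul_eM_zero (half := half) hC hc hDc hA
  have h3 := eM_mul_eP_zero (half := half) hC hc hDc hB
  have e : eP ρ half c * (A' * eM ρ half c) + eM ρ half c * (B' * eP ρ half c)
      = - uu ρ half c A B := by
    unfold uu
    rw [← mul_assoc, ← mul_assoc, neg_add, eq_neg_of_add_eq_zero_right h2,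
      eq_neg_of_add_eq_zero_right h3]
  rw [e] at h1
  exact h1

/-- `s = u²` is central. -/
theorem ss_commute (hC : CCH ρ D) (hhalf : 2 * half = 1) (hc : ρ c * ρ c = 1)
    (hDc : ((D c : kˣ) : k) = -1)
    {A A' B B' Y Y' : Module.End k V} (hA : (A, A') ∈ Pr ρ D) (hB : (B, B') ∈ Pr ρ D)
    (hY : (Y, Y') ∈ Pr ρ D) :
    Commute (uu ρ half c A B * uu ρ half c A B) Y := by
  have hu := uu_mem (half := half) hC hc hDc hA hB
  have h1 := Pr.commute hC (Pr.mul hu hu) hY
  rw [neg_mul_neg] at h1
  have h2 := Commute.smul_left h1 half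
  rw [← two_smul k, smul_smul, mul_comm, hhalf, one_smul] at h2
  exact h2

/-- **(T)** the trace identity. -/
theorem trace_identity (hC : CCH ρ D) (hhalf : 2 * half = 1) (hc : ρ c * ρ c = 1)
    (hDc : ((D c : kˣ) : k) = -1)
    {A A' B B' X X' : Module.End k V} (hA : (A, A') ∈ Pr ρ D) (hB : (B, B') ∈ Pr ρ D)
    (hX : (X, X') ∈ Pr ρ D) :
    uu ρ half c A B * uu ρ half c A B * eP ρ half c * X * eP ρ half c
      + uu ρ half c A B * uu ρ half c A B * eM ρ half c * X * eM ρ half c
      + uu ρ half c A B * eP ρ half c * X * eP ρ half c * uu ρ half c A B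
      + uu ρ half c A B * eM ρ half c * X * eM ρ half c * uu ρ half c A B
      = uu ρ half c A B * uu ρ half c A B * (X + X') := by
  have he := eP_eM_mem (ρ := ρ) (D := D) (half := half) hc hDc
  exact ring_identity _ _ A B X X' (eP_mul_eP hhalf hc) (eM_mul_eM hhalf hc) (eP_mul_eM hc)
    (eM_mul_eP hc) (key_PM hC hc hDc hX hA) (key_MP hC hc hDc hX hB)
    (Pr.commute hC hX he) (Pr.commute hC hX (Pr.swap he))

end Main

end Fermat.Agent.S43.Tr
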